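import Mathlib
import Fermat.Agent.LT.T7.H388.Enum
import Fermat.Agent.LT.T6.Closed

/-!
# Row LT, tower T7 (helper22, architect of T6), OFF-MAIN: the enumeration at a place which
# SPLITS, WITHOUT any hypothesis of unramifiedness

`H388.enumExists388` (helper388) gives the enumeration `(w j, i j)` of the places over a place
`v` with two places over it for `v` OUTSIDE a set `T₀` with `UnramOut305 T₀`.  At a BAD place
(`v ∈ T₀`) which splits the unramifiedness is a CONSEQUENCE of the splitting: `e f g = l` is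
prime and `g ≥ 2`, so `e = f = 1`.

* `unram_of_split22` : `∃ x ∈ v, x ∉ w ^ 2` for every `w` over a place `v` with two places over it;
* `enumBad22`        : the enumeration (the conclusion of `H388.enumExists388`), UNCONDITIONAL
  (`T6.InstSplitC` of `T6.top_closed` plugged).

Imports: Mathlib, `T7/H388/Enum` (helper388, byte-identical copy), `T6/Closed`.  ADDITIVE, new
names only (suffix `22`); every proof is complete.
-/

set_option autoImplicit false

open AutomorphicForm IsDedekindDomain NumberField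
open scoped Pointwise

noncomputable section

namespace Fermat.Agent.LT.T7.H22

open Fermat.Agent.LT.H556 Fermat.Agent.LT.H556.A0 Fermat.Agent.LT.T7 Fermat.Agent.LT.T7.H305
open Fermat.Agent.LT.T7.H388

variable {K K' : Type} [Field K] [NumberField K] [Field K'] [NumberField K'] [Algebra K K']

/-- **A place over a place with two places over it is unramified.** -/
theorem unram_of_split22 {l : ℕ} (hcyc : IsCycExt K K' l) {v : HeightOneSpectrum (𝓞 K)}
    {w₁ w₂ w : HeightOneSpectrum (𝓞 K')} (h₁ : PlaceOver K K' v w₁) (h₂ : PlaceOver K K' v w₂)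
    (hne : w₁ ≠ w₂) (hw : PlaceOver K K' v w) :
    ∃ x : 𝓞 K, x ∈ v.asIdeal ∧ algebraMap (𝓞 K) (𝓞 K') x ∉ w.asIdeal ^ 2 := by
  have := hcyc.galois
  have : v.asIdeal.IsPrime := v.isPrime
  have : v.asIdeal.IsMaximal := v.isMaximal
  have hfund := Ideal.ncard_primesOver_mul_ramificationIdxIn_mul_inertiaDegIn v.asIdeal (𝓞 K')
    Gal(K'/K)
  rw [IsGalois.card_aut_eq_finrank, hcyc.degree] at hfund
  have hdvd : (Ideal.primesOver v.asIdeal (𝓞 K')).ncard ∣ l := ⟨_, hfund.symm⟩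
  have hm₁ : w₁.asIdeal ∈ Ideal.primesOver v.asIdeal (𝓞 K') :=
    ⟨w₁.isPrime, liesOver_of_placeOver388 h₁⟩
  have hm₂ : w₂.asIdeal ∈ Ideal.primesOver v.asIdeal (𝓞 K') :=
    ⟨w₂.isPrime, liesOver_of_placeOver388 h₂⟩
  have hg1 : (Ideal.primesOver v.asIdeal (𝓞 K')).ncard ≠ 1 := by
    intro h1
    obtain ⟨P₀, hP₀⟩ := Set.ncard_eq_one.mp h1
    rw [hP₀, Set.mem_singleton_iff] at hm₁ hm₂
    exact hne (HeightOneSpectrum.ext (hm₁.trans hm₂.symm))
  have hgl : (Ideal.primesOver v.asIdeal (𝓞 K')).ncard = l :=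
    ((Nat.dvd_prime hcyc.prime).mp hdvd).resolve_left hg1
  rw [hgl] at hfund
  have hef : Ideal.ramificationIdxIn v.asIdeal (𝓞 K') * Ideal.inertiaDegIn v.asIdeal (𝓞 K')
      = 1 :=
    Nat.eq_of_mul_eq_mul_left hcyc.prime.pos (by rw [hfund, mul_one])
  have he : Ideal.ramificationIdxIn v.asIdeal (𝓞 K') = 1 := Nat.eq_one_of_mul_eq_one_right hef
  have : w.asIdeal.IsPrime := w.isPrime
  have : w.asIdeal.LiesOver v.asIdeal := liesOver_of_placeOver388 hw
  rw [Ideal.ramificationIdxIn_eq_ramificationIdx v.asIdeal w.asIdeal Gal(K'/K)] at he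
  rw [← Ideal.ramificationIdx'_eq_ramificationIdx v.asIdeal w.asIdeal v.ne_bot] at he
  by_contra hcon
  have hcon : ∀ x : 𝓞 K, x ∈ v.asIdeal → algebraMap (𝓞 K) (𝓞 K') x ∈ w.asIdeal ^ 2 := by
    intro x hx
    by_contra hx'
    exact hcon ⟨x, hx, hx'⟩
  have hle : Ideal.map (algebraMap (𝓞 K) (𝓞 K')) v.asIdeal ≤ w.asIdeal ^ 2 := by
    rw [Ideal.map_le_iff_le_comap]
    intro x hx
    exact hcon x hx
  have h2 : (2 : ℕ) ∈ {n : ℕ | Ideal.map (algebraMap (𝓞 K) (𝓞 K')) v.asIdeal ≤ w.asIdeal ^ n} :=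
    hle
  have he' : sSup {n : ℕ | Ideal.map (algebraMap (𝓞 K) (𝓞 K')) v.asIdeal ≤ w.asIdeal ^ n} = 1 :=
    he
  clear he
  by_cases hb : BddAbove {n : ℕ | Ideal.map (algebraMap (𝓞 K) (𝓞 K')) v.asIdeal ≤ w.asIdeal ^ n}
  · have := le_csSup hb h2
    omega
  · rw [Nat.sSup_of_not_bddAbove hb] at he'
    omega

/-- **THE ENUMERATION AT A PLACE WHICH SPLITS** (the conclusion of `H388.enumExists388`, for
EVERY finite place with two places over it: no hypothesis of unramifiedness, `T6Out` plugged). -/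
theorem enumBad22 (D : CompData K K') (hD : IsCompData D) (hcyc : IsCycExt K K' D.l)
    (v : HeightOneSpectrum (𝓞 K))
    (hex : ∃ w₁ w₂ : HeightOneSpectrum (𝓞 K'),
      PlaceOver K K' v w₁ ∧ PlaceOver K K' v w₂ ∧ w₁ ≠ w₂) :
    ∃ (w : ℕ → HeightOneSpectrum (𝓞 K'))
      (i : ∀ j : ℕ, v.adicCompletion K ≃+* (w j).adicCompletion K'),
      (∀ j : ℕ, PlaceOver K K' v (w j)) ∧ (∀ j : ℕ, T5.PlaceRel D.s (w (j + 1)) (w j)) ∧
      (∀ j : ℕ, 0 < j → j < D.l → w j ≠ w 0) ∧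
      (∀ (j : ℕ) (x : K), i j (algebraMap K (v.adicCompletion K) x)
        = algebraMap K' ((w j).adicCompletion K') (algebraMap K K' x)) ∧
      (∀ (j : ℕ) (x : v.adicCompletion K), Valued.v (i j x) = Valued.v x) := by
  obtain ⟨w₁, w₂, h₁, h₂, hne⟩ := hex
  have hIS : T6.InstSplitC := T6.top_closed.2.2.2.2.2.2.2.1
  have hfix : ∀ y : K, D.s.σ (algebraMap K K' y) = algebraMap K K' y := fun y =>
    (hD.cyc.fixed _).1 ((hD.base _).2 ⟨y, rfl⟩)
  obtain ⟨s, hs⟩ : ∃ s : Gal(K'/K), ∀ x : K', s x = D.s.σ x :=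
    ⟨AlgEquiv.ofRingEquiv (f := D.s.σ) hfix, fun _ => rfl⟩
  have hsmul : ∀ x : 𝓞 K', RingOfIntegers.mapRingEquiv D.s.σ x = s • x := by
    intro x
    apply RingOfIntegers.ext
    rw [coe_smulE388, hs]
    rfl
  have hw : ∀ j : ℕ, PlaceOver K K' v (smulPlace388 ((s ^ j)⁻¹) w₁) :=
    fun j => placeOver_smul388 h₁ _
  have hexi : ∀ j : ℕ, ∃ i : v.adicCompletion K ≃+*
      (smulPlace388 ((s ^ j)⁻¹) w₁).adicCompletion K',
      (∀ x : K, i (algebraMap K (v.adicCompletion K) x)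
        = algebraMap K' ((smulPlace388 ((s ^ j)⁻¹) w₁).adicCompletion K')
          (algebraMap K K' x)) ∧
      ∀ x : v.adicCompletion K, Valued.v (i x) = Valued.v x :=
    fun j => hIS K K' v (smulPlace388 ((s ^ j)⁻¹) w₁) (fun x => hw j x _ rfl)
      (absNorm_split388 hcyc h₁ h₂ hne (hw j)) (unram_of_split22 hcyc h₁ h₂ hne (hw j))
  choose i hi1 hi2 using hexi
  refine ⟨fun j => smulPlace388 ((s ^ j)⁻¹) w₁, i, hw, ?_, ?_, hi1, hi2⟩
  · intro j
    show (smulPlace388 ((s ^ j)⁻¹) w₁).asIdeal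
      = Ideal.map (RingOfIntegers.mapRingEquiv D.s.σ) (smulPlace388 ((s ^ (j + 1))⁻¹) w₁).asIdeal
    rw [map_eq_smul388 (RingOfIntegers.mapRingEquiv D.s.σ) s hsmul, smulPlace_asIdeal388,
      smulPlace_asIdeal388, smul_smul]
    congr 1
    rw [pow_succ]
    group
  · intro j hj hjl heq
    have h0 : (smulPlace388 ((s ^ j)⁻¹) w₁).asIdeal = (smulPlace388 ((s ^ 0)⁻¹) w₁).asIdeal :=
      congrArg HeightOneSpectrum.asIdeal heq
    rw [smulPlace_asIdeal388, smulPlace_asIdeal388, pow_zero, inv_one, one_smul] at h0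
    have h3 : s ^ j = 1 := inv_eq_one.1 (stab_trivial388 hcyc h₁ h₂ hne _ h0)
    obtain ⟨x, hx⟩ := hD.cyc.faithful j hj hjl
    apply hx
    rw [← pow_apply388 D.s.σ s hs j x, h3]
    rfl

end Fermat.Agent.LT.T7.H22

end
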