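import Mathlib
import Fermat.Agent.LT.T7.H893.SupplyConstrSpec
import Fermat.Agent.LT.T6.Closed

/-!
# Row LT, tower T7 (helper22, architect of T6), OFF-MAIN: the exponents of a level
# (`H893.IsLevelOf893`) -- monotone, unique, and EQUAL upstairs and downstairs at a place with an
# identification of the completions which preserves the valuation (a split place)

* `level_mono22`   : `I ≤ J` ⇒ the exponents of `J` are `≤` the exponents of `I`;
* `level_unique22` : the exponents of an ideal are unique;
* `level_split22`  : `n w = m v` for the exponents `n` of `𝔫 𝒪_{K'}`, `m` of `𝔫`, if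
  `i : K_v ≃ K'_w` extends `K → K'` and preserves the valuation.

Imports: Mathlib, `T7/H893/SupplyConstrSpec` (helper893, byte-identical copy), `T6/Closed`
(`InstLocalC`; balls: `T6/H965/Cover`).  ADDITIVE, new names only (suffix `22`).
-/

set_option autoImplicit false

open AutomorphicForm IsDedekindDomain NumberField

noncomputable section

namespace Fermat.Agent.LT.T7.H22

open Fermat.Agent.LT.H556 Fermat.Agent.LT.H556.A0 Fermat.Agent.LT.T7 Fermat.Agent.LT.T7.H305
open Fermat.Agent.LT.T7.H893 Fermat.Agent.LT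

/-- The completion at a finite place is a local field (`T6.InstLocalC`, closed). -/
theorem locField22 {F : Type} [Field F] [NumberField F] (v : HeightOneSpectrum (𝓞 F)) :
    T6.IsLocalField (v.adicCompletion F) (Ideal.absNorm v.asIdeal) :=
  T6.top_closed.2.2.2.2.2.1 F v

/-- The image of an integer in the completion. -/
def img22 {F : Type} [Field F] [NumberField F] (v : HeightOneSpectrum (𝓞 F)) (x : 𝓞 F) :
    v.adicCompletion F :=
  algebraMap F (v.adicCompletion F) (algebraMap (𝓞 F) F x)

theorem idealClosure_eq22 {F : Type} [Field F] [NumberField F] (𝔫 : Ideal (𝓞 F))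
    (v : HeightOneSpectrum (𝓞 F)) :
    idealClosure 𝔫 v = closure (img22 v '' (𝔫 : Set (𝓞 F))) := rfl

theorem img_val_le_one22 {F : Type} [Field F] [NumberField F] (v : HeightOneSpectrum (𝓞 F))
    (x : 𝓞 F) : Valued.v (img22 v x) ≤ 1 := by
  unfold img22
  change Valued.v ((algebraMap (𝓞 F) F x : F) : v.adicCompletion F) ≤ 1
  rw [HeightOneSpectrum.valuedAdicCompletion_eq_valuation']
  exact HeightOneSpectrum.valuation_le_one v x

/-- **The exponents are antitone in the ideal.** -/
theorem level_mono22 {F : Type} [Field F] [NumberField F] {I J : Ideal (𝓞 F)}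
    {n n' : HeightOneSpectrum (𝓞 F) → ℕ} (hI : IsLevelOf893 I n) (hJ : IsLevelOf893 J n')
    (hIJ : I ≤ J) (v : HeightOneSpectrum (𝓞 F)) : n' v ≤ n v := by
  obtain ⟨y, hy⟩ := T6.H965.exists_val_eq_exp965 (locField22 v) (-(n v : ℤ))
  have h1 : y ∈ idealClosure I v := (hI v y).2 hy.le
  have h2 : y ∈ idealClosure J v := by
    rw [idealClosure_eq22] at h1 ⊢
    exact closure_mono (Set.image_mono hIJ) h1
  have h3 := (hJ v y).1 h2
  rw [hy, WithZero.exp_le_exp] at h3
  omega

/-- **The exponents of an ideal are unique.** -/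
theorem level_unique22 {F : Type} [Field F] [NumberField F] {I : Ideal (𝓞 F)}
    {n n' : HeightOneSpectrum (𝓞 F) → ℕ} (hI : IsLevelOf893 I n) (hI' : IsLevelOf893 I n') :
    n = n' :=
  funext fun v => le_antisymm (level_mono22 hI' hI le_rfl v) (level_mono22 hI hI' le_rfl v)

variable {K K' : Type} [Field K] [NumberField K] [Field K'] [NumberField K'] [Algebra K K']

/-- **The exponents at a place with an identification of the completions.** -/
theorem level_split22 (𝔫 : Ideal (𝓞 K)) {m : HeightOneSpectrum (𝓞 K) → ℕ}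
    {n : HeightOneSpectrum (𝓞 K') → ℕ} (hm : IsLevelOf893 𝔫 m)
    (hn : IsLevelOf893 (upI (K' := K') 𝔫) n)
    (v : HeightOneSpectrum (𝓞 K)) (w : HeightOneSpectrum (𝓞 K'))
    (i : v.adicCompletion K ≃+* w.adicCompletion K')
    (hrat : ∀ x : K, i (algebraMap K (v.adicCompletion K) x)
      = algebraMap K' (w.adicCompletion K') (algebraMap K K' x))
    (hval : ∀ x : v.adicCompletion K, Valued.v (i x) = Valued.v x) : n w = m v := by
  have himg : ∀ a : 𝓞 K, img22 w (algebraMap (𝓞 K) (𝓞 K') a) = i (img22 v a) := by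
    intro a
    unfold img22
    rw [hrat]
    rfl
  have hgen : ∀ a : 𝓞 K, a ∈ 𝔫 → Valued.v (img22 v a) ≤ WithZero.exp (-(m v : ℤ)) := by
    intro a ha
    refine (hm v _).1 ?_
    rw [idealClosure_eq22]
    exact subset_closure ⟨a, ha, rfl⟩
  apply le_antisymm
  · -- `n w ≤ m v`
    obtain ⟨y, hy⟩ := T6.H965.exists_val_eq_exp965 (locField22 v) (-(m v : ℤ))
    have h1 : y ∈ idealClosure 𝔫 v := (hm v y).2 hy.le
    rw [idealClosure_eq22, mem_closure_iff_nhds] at h1
    obtain ⟨z, hz1, hz2⟩ :=
      h1 _ (T6.H965.closedBall_mem_nhds965 (locField22 v) y ((m v : ℤ) + 1))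
    obtain ⟨a, ha, rfl⟩ := hz2
    have hlt : Valued.v (img22 v a - y) < Valued.v y := by
      refine lt_of_le_of_lt hz1 ?_
      rw [hy, WithZero.exp_lt_exp]
      omega
    have hva : Valued.v (img22 v a) = WithZero.exp (-(m v : ℤ)) := by
      have : img22 v a = y + (img22 v a - y) := by ring
      rw [this, Valuation.map_add_eq_of_lt_left _ hlt, hy]
    have h2 : img22 w (algebraMap (𝓞 K) (𝓞 K') a) ∈ idealClosure (upI (K' := K') 𝔫) w := by
      rw [idealClosure_eq22]
      exact subset_closure ⟨_, Ideal.mem_map_of_mem _ ha, rfl⟩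
    have h3 := (hn w _).1 h2
    rw [himg, hval, hva, WithZero.exp_le_exp] at h3
    omega
  · -- `m v ≤ n w`
    have key : ∀ b : 𝓞 K', b ∈ Ideal.map (algebraMap (𝓞 K) (𝓞 K')) 𝔫 →
        Valued.v (img22 w b) ≤ WithZero.exp (-(m v : ℤ)) := by
      intro b hb
      have hb' : b ∈ Ideal.span ((algebraMap (𝓞 K) (𝓞 K')) '' (𝔫 : Set (𝓞 K))) := hb
      clear hb
      induction hb' using Submodule.span_induction with
      | mem x hx =>
        obtain ⟨a, ha, rfl⟩ := hx
        rw [himg, hval]
        exact hgen a ha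
      | zero =>
        have : img22 w (0 : 𝓞 K') = 0 := by unfold img22; simp
        rw [this, map_zero]
        exact zero_le
      | add x y _ _ hx hy =>
        have : img22 w (x + y) = img22 w x + img22 w y := by unfold img22; simp
        rw [this]
        exact (Valuation.map_add_le_max' _ _ _).trans (max_le hx hy)
      | smul c x _ hx =>
        have : img22 w (c • x) = img22 w c * img22 w x := by
          unfold img22; simp [smul_eq_mul]
        rw [this, map_mul]
        calc Valued.v (img22 w c) * Valued.v (img22 w x)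
            ≤ 1 * WithZero.exp (-(m v : ℤ)) := mul_le_mul' (img_val_le_one22 w c) hx
          _ = WithZero.exp (-(m v : ℤ)) := one_mul _
    have hsub : idealClosure (upI (K' := K') 𝔫) w
        ⊆ {x : w.adicCompletion K' | Valued.v x ≤ WithZero.exp (-(m v : ℤ))} := by
      rw [idealClosure_eq22]
      refine closure_minimal ?_ (T6.H965.isClosed_ball965 (locField22 w) _)
      rintro _ ⟨b, hb, rfl⟩
      exact key b hb
    obtain ⟨y, hy⟩ := T6.H965.exists_val_eq_exp965 (locField22 w) (-(n w : ℤ))
    have h1 : y ∈ idealClosure (upI (K' := K') 𝔫) w := (hn w y).2 hy.le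
    have h2 : Valued.v y ≤ WithZero.exp (-(m v : ℤ)) := hsub h1
    rw [hy, WithZero.exp_le_exp] at h2
    omega

end Fermat.Agent.LT.T7.H22

end
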