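import Mathlib
import Fermat.Agent.LT.T7.B970.Pair2Spec
import Fermat.Agent.LT.T7.H22.EnumBad
import Fermat.Agent.LT.T7.H22.LevelBad
import Fermat.Agent.LT.T6.H22.InertPartnerDbl
import Fermat.Agent.LT.T6.H22.ConvEx
import Fermat.Agent.LT.T6.H22.Transport

/-!
# Row LT, tower T7, leaf T7.L2.1.H2a.4.2 `B970.BadLocC970` (registry 2863; helper22, architect
# of T6, SPARE): PROVED

OFF-MAIN.  No hole, nothing assumed.  ADDITIVE (new names only, suffix `22`).

    badLocC22 (K K') : B970.BadLocC970 K K'                       (VERBATIM, UNCONDITIONAL)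

Spec: `T7/B970/Pair2Spec.lean` (helper970, sha256 fab97ceab0e09862), byte-identical copy.

## The proof

The exponents `n₀` of the base level are unique (`level_unique22`), so the bound may depend on
them.  For a place `w` of `S'` which is the ONLY place over the place `v` under it:
`T6.H22.inertPartnerDbl22` (`T6.BadMatchC` + twisted change of level `twLvlC22`, closed) gives
`M_w` and, for all levels `n ≥ n₀ w`, `m ≥ M_w`, a partner of `1_{U(n₀ w) g_w U(n₀ w)}`;
`M = max_{w ∈ S'} M_w`.  For a level `𝔫` with exponents `(T₀, n, n₀, m)`, `m ≥ M` on `T₀`, and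
`v ∈ T₀`:

* ONE place `w` over `v`: `w ∈ S'` (`v ∣ 𝔫`), `n w ≥ n₀ w` (`𝔫 𝒪_{K'} ⊆ 𝔑₀`, `level_mono22`),
  `b v` = the partner at the levels `(n w, m v)`;
* TWO places over `v`: `v` splits completely and is unramified (`unram_of_split22`), the
  enumeration `(w j, i j)` of `enumBad22` (`T6.InstSplitC`), `n (w j) = m v`
  (`level_split22`), `b v` = the convolution product at the level `m v` of the transported double
  coset functions in the order of the enumeration (`T6.H22.exists_convProd22`,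
  `T6.H22.transport22`);
* `inv_up`: `T6.H22.dbl_inv_up22`.
-/

set_option autoImplicit false

open AutomorphicForm IsDedekindDomain NumberField MeasureTheory

noncomputable section

namespace Fermat.Agent.LT.T7.H22

open Fermat.Agent.LT.H556 Fermat.Agent.LT.H556.A0 Fermat.Agent.LT.T7 Fermat.Agent.LT.T7.H305
open Fermat.Agent.LT.T7.H893 Fermat.Agent.LT.T7.B981 Fermat.Agent.LT

variable {K K' : Type} [Field K] [NumberField K] [Field K'] [NumberField K'] [Algebra K K']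

/-! ## 1. Places -/

theorem placeOver_alg22 {v : HeightOneSpectrum (𝓞 K)} {w : HeightOneSpectrum (𝓞 K')}
    (h : PlaceOver K K' v w) (x : 𝓞 K) :
    x ∈ v.asIdeal ↔ algebraMap (𝓞 K) (𝓞 K') x ∈ w.asIdeal := h x _ rfl

/-- A place which contains the image of `v` lies over `v`. -/
theorem placeOver_of_le22 {v : HeightOneSpectrum (𝓞 K)} {w' : HeightOneSpectrum (𝓞 K')}
    (h : ∀ x : 𝓞 K, x ∈ v.asIdeal → algebraMap (𝓞 K) (𝓞 K') x ∈ w'.asIdeal) :
    PlaceOver K K' v w' := by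
  have hcomap : v.asIdeal = Ideal.comap (algebraMap (𝓞 K) (𝓞 K')) w'.asIdeal := by
    refine v.isMaximal.eq_of_le ?_ (fun x hx => h x hx)
    exact Ideal.comap_ne_top _ w'.isPrime.ne_top
  intro x y hy
  have hyx : y = algebraMap (𝓞 K) (𝓞 K') x := RingOfIntegers.ext (by rw [hy]; rfl)
  rw [hyx]
  constructor
  · exact h x
  · intro hx
    rw [hcomap]
    exact hx

/-- The place under a place is unique. -/
theorem place_unique_below22 {v v' : HeightOneSpectrum (𝓞 K)} {w : HeightOneSpectrum (𝓞 K')}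
    (h : PlaceOver K K' v w) (h' : PlaceOver K K' v' w) : v = v' := by
  apply HeightOneSpectrum.ext
  ext x
  rw [placeOver_alg22 h, placeOver_alg22 h']

/-- A place over a place of the level divides the level upstairs. -/
theorem dvd_up22 {𝔫 : Ideal (𝓞 K)} {v : HeightOneSpectrum (𝓞 K)} {w : HeightOneSpectrum (𝓞 K')}
    (h : v.asIdeal ∣ 𝔫) (hw : PlaceOver K K' v w) : w.asIdeal ∣ upI (K' := K') 𝔫 := by
  rw [Ideal.dvd_iff_le] at h ⊢
  show Ideal.map (algebraMap (𝓞 K) (𝓞 K')) 𝔫 ≤ w.asIdeal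
  rw [Ideal.map_le_iff_le_comap]
  intro x hx
  exact (placeOver_alg22 hw x).1 (h hx)

/-- A non-trivial element of the Galois group of a cyclic extension of prime degree generates
it. -/
theorem gal_gen22 {ℓ : ℕ} (hcyc : IsCycExt K K' ℓ) (σ : K' ≃+* K') (s : K' ≃ₐ[K] K')
    (hs : ∀ x : K', s x = σ x) (hne : ∃ x : K', σ x ≠ x) :
    ∀ t : K' ≃ₐ[K] K', t ∈ Subgroup.zpowers s := by
  have := hcyc.galois
  have hcard : Nat.card (K' ≃ₐ[K] K') = ℓ := by
    rw [IsGalois.card_aut_eq_finrank, hcyc.degree]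
  haveI : Fact ℓ.Prime := ⟨hcyc.prime⟩
  have hs1 : s ≠ 1 := by
    intro h1
    obtain ⟨x, hx⟩ := hne
    apply hx
    rw [← hs, h1]
    rfl
  intro t
  exact mem_zpowers_of_prime_card hcard hs1

/-! ## 2. The two clauses for one place -/

/-- The clause `inert` of `B970.LocFin970` for one pair of places and one pair of functions. -/
def InertCl22 (σ : K' ≃+* K') (l : ℕ) (v : HeightOneSpectrum (𝓞 K))
    (w : HeightOneSpectrum (𝓞 K')) (n m : ℕ) (φ : GL (Fin 2) (w.adicCompletion K') → ℂ)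
    (f : GL (Fin 2) (v.adicCompletion K) → ℂ) : Prop :=
  ∀ (e : ℕ) (i : v.adicCompletion K →+* w.adicCompletion K')
    (sw : w.adicCompletion K' ≃+* w.adicCompletion K'),
    (∀ x : K, i (algebraMap K (v.adicCompletion K) x)
      = algebraMap K' (w.adicCompletion K') (algebraMap K K' x)) →
    (∀ y : K', sw (algebraMap K' (w.adicCompletion K') y)
      = algebraMap K' (w.adicCompletion K') (σ y)) →
    T6.IsLocalExt (v.adicCompletion K) (w.adicCompletion K') l e i sw →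
    (∀ (δ : GL (Fin 2) (w.adicCompletion K')) (γ : GL (Fin 2) (v.adicCompletion K))
        (c c' : ℂ), T6.IsReg γ →
        IsConj (T6.twNorm sw l δ) (Matrix.GeneralLinearGroup.map i γ) →
        T6.IsTwOrbSum sw n φ δ c → T6.IsOrbSum m f γ c' → c = c') ∧
      ∀ (γ : GL (Fin 2) (v.adicCompletion K)) (c' : ℂ), T6.IsReg γ →
        ¬ T6.IsNormFrom l i sw γ → T6.IsOrbSum m f γ c' → c' = 0

/-- The conclusion of the clause `split` of `B970.LocFin970` for one place and one function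
downstairs. -/
def SplitCl22 (D : CompData K K') (v : HeightOneSpectrum (𝓞 K))
    (n : HeightOneSpectrum (𝓞 K') → ℕ) (m : HeightOneSpectrum (𝓞 K) → ℕ)
    (φ₀ : ∀ w : HeightOneSpectrum (𝓞 K'), GL (Fin 2) (w.adicCompletion K') → ℂ)
    (f : GL (Fin 2) (v.adicCompletion K) → ℂ) : Prop :=
  ∃ (w : ℕ → HeightOneSpectrum (𝓞 K'))
    (i : ∀ j : ℕ, v.adicCompletion K ≃+* (w j).adicCompletion K'),
    (∀ j : ℕ, PlaceOver K K' v (w j)) ∧ (∀ j : ℕ, T5.PlaceRel D.s (w (j + 1)) (w j)) ∧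
    (∀ j : ℕ, 0 < j → j < D.l → w j ≠ w 0) ∧
    (∀ (j : ℕ) (x : K), i j (algebraMap K (v.adicCompletion K) x)
      = algebraMap K' ((w j).adicCompletion K') (algebraMap K K' x)) ∧
    (∀ (j : ℕ) (x : v.adicCompletion K), Valued.v (i j x) = Valued.v x) ∧
    (∀ j : ℕ, n (w j) = m v) ∧
      T6.IsConvProd (T6.InU (m v)) D.l
        (fun j g => φ₀ (w j)
          (Matrix.GeneralLinearGroup.map ((i j : v.adicCompletion K ≃+* _) :
            v.adicCompletion K →+* (w j).adicCompletion K') g))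
        f

/-! ## 3. The leaf -/

/-- **LEAF T7.L2.1.H2a.4.2 = BAD-LOC**, proved (VERBATIM, UNCONDITIONAL). -/
theorem badLocC22 (K K' : Type) [Field K] [NumberField K] [Field K'] [NumberField K']
    [Algebra K K'] : B970.BadLocC970 K K' := by
  classical
  intro ℓ hcyc _ _ Φ B hB _ g _
  have := hcyc.galois
  have hfix : ∀ y : K, B.s.σ (algebraMap K K' y) = algebraMap K K' y := fun y =>
    (hB.cyc.fixed _).1 ((hB.base _).2 ⟨y, rfl⟩)
  obtain ⟨s, hsσ⟩ : ∃ s : K' ≃ₐ[K] K', ∀ y : K', B.s.σ y = s y :=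
    ⟨AlgEquiv.ofRingEquiv (f := B.s.σ) hfix, fun _ => rfl⟩
  have hl : B.l = Module.finrank K K' := hB.deg.trans hcyc.degree.symm
  have hprime : (Module.finrank K K').Prime := by rw [hcyc.degree]; exact hcyc.prime
  have hgen : ∀ t : K' ≃ₐ[K] K', t ∈ Subgroup.zpowers s := by
    apply gal_gen22 hcyc B.s.σ s (fun x => (hsσ x).symm)
    obtain ⟨x, hx⟩ := hB.cyc.faithful 1 Nat.one_pos (by rw [hB.deg]; exact hcyc.prime.one_lt)
    exact ⟨x, by simpa using hx⟩
  by_cases hn₀ : ∃ N₀ : HeightOneSpectrum (𝓞 K') → ℕ, IsLevelOf893 B.𝔑₀ N₀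
  swap
  · exact ⟨0, fun 𝔫 _ T₀ n n₀ m hexp _ => absurd ⟨n₀, hexp.lvl_base⟩ hn₀⟩
  obtain ⟨N₀, hN₀⟩ := hn₀
  -- the bounds at the places with one place over the place under them
  have hex : ∀ w : HeightOneSpectrum (𝓞 K'), ∃ Mw : ℕ, ∀ v : HeightOneSpectrum (𝓞 K),
      PlaceOver K K' v w → (∀ w' : HeightOneSpectrum (𝓞 K'), PlaceOver K K' v w' → w' = w) →
      ∀ n m : ℕ, N₀ w ≤ n → Mw ≤ m → ∃ f : GL (Fin 2) (v.adicCompletion K) → ℂ,
        T6.IsBiInv (T6.InU m) f ∧ T6.HasFinSupp (T6.InU m) f ∧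
        InertCl22 B.s.σ B.l v w n m (dblFn893 (N₀ w) (finGL305 w g)) f := by
    intro w
    by_cases h : ∃ v : HeightOneSpectrum (𝓞 K), PlaceOver K K' v w ∧
        ∀ w' : HeightOneSpectrum (𝓞 K'), PlaceOver K K' v w' → w' = w
    · obtain ⟨v₀, hv₀, hu₀⟩ := h
      obtain ⟨m₀, hm₀⟩ := T6.H22.inertPartnerDbl22 K K' s hgen hprime v₀ w (placeOver_alg22 hv₀)
        (fun w' hw' => hu₀ w' (placeOver_of_le22 hw')) (N₀ w) (finGL305 w g)
        (dblFn893 (N₀ w) (finGL305 w g)) (T6.H22.isDblInd_ite22 _ _ _)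
      refine ⟨m₀, fun v hv _ n m hn hm => ?_⟩
      obtain rfl : v = v₀ := place_unique_below22 hv hv₀
      obtain ⟨f, hf1, hf2, hf3⟩ := hm₀ n m hn hm
      refine ⟨f, hf1, hf2, ?_⟩
      intro e i sw h1 h2 h3
      rw [hl] at h3 ⊢
      exact hf3 B.s.σ hsσ e i sw h1 h2 h3
    · exact ⟨0, fun v hv hu => absurd ⟨v, hv, hu⟩ h⟩
  choose Mw hMw using hex
  refine ⟨B.S'.sup Mw, ?_⟩
  intro 𝔫 hlvl T₀ n n₀ m hexp hM
  obtain rfl : n₀ = N₀ := level_unique22 hexp.lvl_base hN₀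
  have hD : IsCompData (B.comp 𝔫) :=
    ⟨hB.cyc, hB.base, hlvl.level_ne, rfl, hB.frame, hB.frame', hB.aut 𝔫⟩
  have hcycD : IsCycExt K K' (B.comp 𝔫).l := by
    show IsCycExt K K' B.l
    rw [hB.deg]
    exact hcyc
  have hnn : ∀ w : HeightOneSpectrum (𝓞 K'), n₀ w ≤ n w :=
    fun w => level_mono22 hexp.lvl_up hN₀ hlvl.level_g w
  have hup : ∀ w : HeightOneSpectrum (𝓞 K'),
      T6.IsBiInv (T6.InU (n w)) (dblFn893 (n₀ w) (finGL305 w g)) ∧
        T6.HasFinSupp (T6.InU (n w)) (dblFn893 (n₀ w) (finGL305 w g)) :=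
    fun w => T6.H22.dbl_inv_up22 (locField22 w) (hnn w) (T6.H22.isDblInd_ite22 _ _ _)
  have hbex : ∀ v : HeightOneSpectrum (𝓞 K), ∃ f : GL (Fin 2) (v.adicCompletion K) → ℂ,
      v ∈ T₀ →
      (T6.IsBiInv (T6.InU (m v)) f ∧ T6.HasFinSupp (T6.InU (m v)) f) ∧
      (∀ w : HeightOneSpectrum (𝓞 K'), PlaceOver K K' v w →
        (∀ w' : HeightOneSpectrum (𝓞 K'), PlaceOver K K' v w' → w' = w) →
        InertCl22 B.s.σ B.l v w (n w) (m v) (dblFn893 (n₀ w) (finGL305 w g)) f) ∧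
      ((∃ w₁ w₂ : HeightOneSpectrum (𝓞 K'),
          PlaceOver K K' v w₁ ∧ PlaceOver K K' v w₂ ∧ w₁ ≠ w₂) →
        SplitCl22 (B.comp 𝔫) v n m (fun w => dblFn893 (n₀ w) (finGL305 w g)) f) := by
    intro v
    by_cases hvT : v ∈ T₀
    swap
    · exact ⟨fun _ => 0, fun h => absurd h hvT⟩
    by_cases hP : ∃ w : HeightOneSpectrum (𝓞 K'), PlaceOver K K' v w ∧
        ∀ w' : HeightOneSpectrum (𝓞 K'), PlaceOver K K' v w' → w' = w
    · obtain ⟨w₀, hw₀, hu₀⟩ := hP
      have hwS : w₀ ∈ B.S' := (hlvl.mem_S'_g w₀).2 (dvd_up22 ((hexp.mem v).1 hvT) hw₀)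
      have hMle : Mw w₀ ≤ m v := (Finset.le_sup (f := Mw) hwS).trans (hM v hvT)
      obtain ⟨f, hf1, hf2, hf3⟩ := hMw w₀ v hw₀ hu₀ (n w₀) (m v) (hnn w₀) hMle
      refine ⟨f, fun _ => ⟨⟨hf1, hf2⟩, ?_, ?_⟩⟩
      · intro w hw _
        obtain rfl : w = w₀ := hu₀ w hw
        exact hf3
      · rintro ⟨w₁, w₂, h₁, h₂, hne⟩
        exact absurd ((hu₀ w₁ h₁).trans (hu₀ w₂ h₂).symm) hne
    · by_cases hQ : ∃ w₁ w₂ : HeightOneSpectrum (𝓞 K'),
          PlaceOver K K' v w₁ ∧ PlaceOver K K' v w₂ ∧ w₁ ≠ w₂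
      · obtain ⟨w, i, h1, h2, h3, h4, h5⟩ := enumBad22 (B.comp 𝔫) hD hcycD v hQ
        have hlev : ∀ j : ℕ, n (w j) = m v := fun j =>
          level_split22 𝔫 hexp.lvl hexp.lvl_up v (w j) (i j) (h4 j) (h5 j)
        have hψ : ∀ j : ℕ,
            T6.IsBiInv (T6.InU (m v)) (fun x => dblFn893 (n₀ (w j)) (finGL305 (w j) g)
              (Matrix.GeneralLinearGroup.map ((i j : v.adicCompletion K ≃+* _) :
                v.adicCompletion K →+* (w j).adicCompletion K') x)) ∧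
            T6.HasFinSupp (T6.InU (m v)) (fun x => dblFn893 (n₀ (w j)) (finGL305 (w j) g)
              (Matrix.GeneralLinearGroup.map ((i j : v.adicCompletion K ≃+* _) :
                v.adicCompletion K →+* (w j).adicCompletion K') x)) := by
          intro j
          have h := hup (w j)
          rw [hlev j] at h
          exact T6.H22.transport22 (i j) (h5 j) (m v) _ h.1 h.2
        obtain ⟨f, hf1, hf2, hf3⟩ := T6.H22.exists_convProd22 (T6.H22.isSub_inU22 (m v))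
          (B.comp 𝔫).l _ (fun j => (hψ j).1) (fun j => (hψ j).2)
        refine ⟨f, fun _ => ⟨⟨hf2, hf3⟩, ?_, ?_⟩⟩
        · intro w' hw' hu'
          exact absurd ⟨w', hw', hu'⟩ hP
        · intro _
          exact ⟨w, i, h1, h2, h3, h4, h5, hlev, hf1⟩
      · refine ⟨fun _ => 0, fun _ => ⟨⟨fun _ _ _ _ _ => rfl, ⟨∅, fun x hx => absurd rfl hx⟩⟩,
          ?_, ?_⟩⟩
        · intro w' hw' hu'
          exact absurd ⟨w', hw', hu'⟩ hP
        · intro h
          exact absurd h hQ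
  choose b hb using hbex
  exact ⟨b, ⟨fun v _ w _ => hup w,
    fun v hv => (hb v (Finset.mem_of_mem_erase hv)).1,
    fun v hv w hw hu => (hb v (Finset.mem_of_mem_erase hv)).2.1 w hw hu,
    fun v hv hsp => (hb v (Finset.mem_of_mem_erase hv)).2.2 hsp⟩⟩

end Fermat.Agent.LT.T7.H22

end
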